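import Fermat.Agent.S59.LoSqC.Skel
import Fermat.Agent.S59.LoSqC.H586.Alg3C

/-!
# S59 moonshot, cell (C) LO-SQ: the level wall by CASE SPLIT `p ∣ q² - 1` (helper433)

The frozen leaf `LoSqC.LeafRealize` (`Spec.lean` of helper885) is stated for ALL odd `q`
(including `q = 3`) and all odd primes `p ≠ q`.  Its interior (W-COUNT: GUB4 / ORD12 / TH1-4) is
only available for `5 ≤ q`.  This file shows that NOTHING above `LeafRealize` has to change:

* `LeafRealizeHard` : `LeafRealize` with the two extra hypotheses `5 ≤ q` and `p ∣ q ^ 2 - 1`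
  (the hard case; for odd primes `p`, `q` the second implies the first);
* `levelWall_of_leaves_hard :
     NewUnitsStatement → LeafCtx → LeafRealizeHard → LevelWallStatement` (VERBATIM target):
  - `p ∣ q² - 1` : the skeleton of helper885 (`NewUnits` + `RealizeAt`);
  - `p ∤ q² - 1` : the S36 engine with its explicit constant (`H586.alg3C`, helper586):
    `f ^ C = c · h ^ p` with `C = (q² - 1)²` prime to `p`, hence `f = c' · h' ^ p`, which is
    `FromBelow` with `g = g' = 1`.

Sorry-free; OFF-MAIN (S59 moonshot).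
-/

set_option autoImplicit false
set_option linter.style.haveILetI false
set_option linter.unusedSectionVars false
set_option linter.unusedVariables false
set_option synthInstance.maxHeartbeats 400000
set_option maxHeartbeats 1600000

noncomputable section

namespace Fermat.Agent.S59.LoSqC.H433

open ModularCurve AlgebraicCurve
open Fermat.Agent.S36 Fermat.Agent.S36.Eng
open Fermat.Agent.S59.LoSqC

/-! ## Arithmetic -/

/-- For odd primes `p`, `q`: `p ∣ q² - 1` forces `5 ≤ q`. -/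
theorem five_le_of_dvd_sq_sub_one433 {p q : ℕ} (hp : p.Prime) (hp2 : p ≠ 2) (hq : q.Prime)
    (hq2 : q ≠ 2) (h : p ∣ q ^ 2 - 1) : 5 ≤ q := by
  by_contra hlt
  rw [not_le] at hlt
  have h2 : 2 ≤ q := hq.two_le
  have hq3 : q = 3 := by
    interval_cases q
    · exact absurd rfl hq2
    · rfl
    · exact absurd hq (by norm_num)
  subst hq3
  have h8 : p ∣ 2 ^ 3 := by
    have : (3 : ℕ) ^ 2 - 1 = 2 ^ 3 := by norm_num
    rw [this] at h
    exact h
  have := (Nat.prime_dvd_prime_iff_eq hp Nat.prime_two).1 (hp.dvd_of_dvd_pow h8)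
  exact hp2 this

/-! ## The hard leaf -/

/-- **REALIZE, hard case only** (`5 ≤ q`, `p ∣ q² - 1`): the leaf the W-COUNT / W-PULL / W-SUB
interior has to deliver. -/
def LeafRealizeHard : Prop :=
  Mod3.Leaf fun _ E M q _ _ _ _ _ _ V₁ V₂ V₃ =>
    5 ≤ q → ∀ p : ℕ, p.Prime → p ≠ 2 → p ≠ q → p ∣ q ^ 2 - 1 →
      RealizeAt E p (A2.Mod.αE E (M * q) q) (A2.Mod.βE E (M * q) q) V₁ V₂ V₃

/-- The frozen leaf implies the hard leaf. -/
theorem leafRealizeHard_of_leafRealize433 (h : LeafRealize) : LeafRealizeHard := by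
  intro P E M q _ _ _ w hS V₁' V₂' V₁ V₂ V₃ W' W hO h5 p hp hp2 hpq _
  exact h P E M q w hS V₁' V₂' V₁ V₂ V₃ W' W hO (by omega) p hp hp2 hpq

/-! ## The easy case: a power prime to `m` -/

section Abs

variable {E F F' : Type*} [Field E] [Field F] [Algebra E F] [Field F'] [Algebra E F']

/-- `m ∣ div 1`. -/
theorem divisibleDiv_one433 (m : ℕ) : A2.DivisibleDiv E m (1 : F) := by
  intro V _ _
  exact ⟨1, 1, one_ne_zero, V.one_mem, by rw [inv_one]; exact V.one_mem, by simp⟩

/-- If `f ^ C = c · h ^ m` with `C` prime to `m`, then `f` is a constant times an `m`-th power;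
in particular it comes from below (with `g = g' = 1`). -/
theorem fromBelow_of_pow_eq433 {m C : ℕ} (hC : Nat.Coprime C m) (α β : F' →ₐ[E] F) {f : F}
    (hf : f ≠ 0) {c : E} {h : F} (hh : h ≠ 0) (e : f ^ C = algebraMap E F c * h ^ m) :
    FromBelow E m α β f := by
  have hc : c ≠ 0 := by
    rintro rfl
    rw [map_zero, zero_mul] at e
    exact pow_ne_zero _ hf e
  have hcF : algebraMap E F c ≠ 0 := (_root_.map_ne_zero _).mpr hc
  -- Bezout
  have hcop : IsCoprime (C : ℤ) (m : ℤ) := Nat.isCoprime_iff_coprime.mpr hC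
  obtain ⟨a, b, hab⟩ := hcop
  refine ⟨c ^ a, 1, 1, h ^ a * f ^ b, one_ne_zero, one_ne_zero,
    mul_ne_zero (zpow_ne_zero _ hh) (zpow_ne_zero _ hf), divisibleDiv_one433 m,
    divisibleDiv_one433 m, ?_⟩
  have h1 : f = (f ^ C) ^ a * (f ^ b) ^ m := by
    have e1 : (f ^ C) ^ a = f ^ ((C : ℤ) * a) := by
      rw [zpow_mul, zpow_natCast]
    have e2 : (f ^ b) ^ m = f ^ (b * (m : ℤ)) := by
      rw [zpow_mul, zpow_natCast]
    rw [e1, e2, ← zpow_add₀ hf]
    have : (C : ℤ) * a + b * (m : ℤ) = 1 := by rw [← hab]; ring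
    rw [this, zpow_one]
  have h2 : (f ^ C) ^ a = algebraMap E F (c ^ a) * (h ^ a) ^ m := by
    rw [e, mul_zpow, map_zpow₀]
    congr 1
    rw [← zpow_natCast (h ^ a) m, ← zpow_mul, mul_comm, zpow_mul, zpow_natCast]
  rw [map_one, map_one, mul_one, mul_one, mul_pow, ← mul_assoc, ← h2]
  exact h1

end Abs

/-! ## The level wall -/

/-- **The level wall from the HARD leaf** (target VERBATIM: `LoSqC.LevelWallStatement`).
Case `p ∣ q² - 1`: NEW-UNITS + CTX + REALIZE (hard);  case `p ∤ q² - 1`: the S36 engine with its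
explicit constant. -/
theorem levelWall_of_leaves_hard (hNU : NewUnitsStatement) (hCtx : LeafCtx)
    (hRe : LeafRealizeHard) : LevelWallStatement := by
  intro P E M q p _ _ _ hq hqM hP hE hneat hq2 hp hp2 hpq w hw V₁' V₂' V₁ V₂ V₃ W' W hO
    f hf hdiv hα hβ hslope
  haveI : IsDiscreteValuationRing ↥(A2.RE P E) := hE.1.dvr
  haveI : HenselianLocalRing ↥(A2.RE P E) := hE.1.henselian
  haveI : IsAlgClosed (IsLocalRing.ResidueField ↥(A2.RE P E)) := hE.1.algClosed
  have hS : Mod3.Std P E M q w :=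
    { q_prime := hq, q_not_dvd := hqM, lies_over := hP, unram := hE, neat := hneat, unif := hw }
  have hctx := hCtx P E M q w hS V₁' V₂' V₁ V₂ V₃ W' W hO
  have hqp : ¬ q ∣ p := fun hd => hpq ((Nat.prime_dvd_prime_iff_eq hq hp).1 hd).symm
  by_cases hd : p ∣ q ^ 2 - 1
  · -- the hard case
    have h5 : 5 ≤ q := five_le_of_dvd_sq_sub_one433 hp hp2 hq hq2 hd
    have hU : UnitsForm E p V₁ V₂ V₃ f :=
      hNU (R := ↥(A2.RE P E)) (E := E) (F := ↥(A2.Mod.FE E (M * q * q)))
        (F' := ↥(A2.Mod.FE E (M * q))) w hw q hq (natCast_mem_maximalIdeal_RE E hP)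
        (A2.Mod.αE E (M * q) q) (A2.Mod.βE E (M * q) q) (Mod3.x3E E M q) (A2.Mod.xE E M q)
        V₁ V₂ V₃ V₁' V₂' hctx p hp.pos hqp f hf hα hβ
        (fun hnc => hslope (by
          by_contra hnd
          exact hnc ((Nat.Prime.coprime_iff_not_dvd hp).2 hnd)))
    exact fromBelow_of_unitsForm
      (hRe P E M q w hS V₁' V₂' V₁ V₂ V₃ W' W hO h5 p hp hp2 hpq hd) hf hdiv hU
  · -- the easy case: the S36 engine with explicit constant
    obtain ⟨c, h, hh, e⟩ :=
      H586.alg3C (R := ↥(A2.RE P E)) (E := E) (F := ↥(A2.Mod.FE E (M * q * q)))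
        (F' := ↥(A2.Mod.FE E (M * q))) w hw q hq (natCast_mem_maximalIdeal_RE E hP)
        (A2.Mod.αE E (M * q) q) (A2.Mod.βE E (M * q) q) (Mod3.x3E E M q) (A2.Mod.xE E M q)
        V₁ V₂ V₃ V₁' V₂' hctx p hp.pos hqp f hf hdiv hα hβ
    exact fromBelow_of_pow_eq433 (H586.alg3Const_coprime hp hd) _ _ hf hh e

end Fermat.Agent.S59.LoSqC.H433

end
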