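import Fermat.Agent.S59.LoSqC.H608.FrontierAll
import Fermat.Agent.S59.LoSqC.H876.AtInertia
import Fermat.Agent.S59.LoSqC.H987.RealizePt

/-!
# S59 moonshot, cell (C) LO-SQ: the frontier OVER THE INERTIA FIELD, pointwise (helper433)

OFF-MAIN.  Everything above the two surjectivities of level `M q` is plugged
(`H608.sqFree35_of_coreSqNeat_all608`, `H876.coreSqNeat_of_realizeHardI876`,
`H865.leafCtx865`, `H987.realizeAt_of_surj_pt`), and the two surjectivities are only asked

* at `E = inertiaFldC P` LITERALLY (helper876, `AtInertia.lean`),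
* in the hard case `5 ≤ q`, `p ∣ q ^ 2 - 1` (helper433, `WallSplit.lean`),
* with ALL side conditions of the system of objects available (`Mod3.Std`, `Mod3.Objs`),
* for the labels: for SOME primitive `p`-th root of unity `ζ` of `R_E` (not for all).

So **cell (C) = `LeafRSurjHardI` + `LeafLabSurjHardI`**:

    sqFree35_of_surjHardI433 : LeafRSurjHardI → LeafLabSurjHardI → H826.SqFree35Statement

and the count of level `M q` (RealSpec) has to deliver exactly these two Props.
-/

set_option autoImplicit false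
set_option linter.style.haveILetI false
set_option linter.unusedSectionVars false
set_option linter.unusedVariables false
set_option synthInstance.maxHeartbeats 400000
set_option maxHeartbeats 1600000

noncomputable section

namespace Fermat.Agent.S59.LoSqC.H433

open ModularCurve AlgebraicCurve
open Fermat.Agent.S36 Fermat.Agent.S36.Eng
open Fermat.Agent.S59.LoSqC

/-- **(R) over the inertia field, hard case**: the reductions of level `M q` are onto, shape
`(0, *)` (`H987.RSurj1E`), at every system of objects over `E = inertiaFldC P`. -/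
def LeafRSurjHardI : Prop :=
  ∀ (P : ValuationSubring A2.Qb) (M q : ℕ) [NeZero M] [NeZero q] [NeZero (M * q)]
    (w : A2.RE P (inertiaFldC P)), Mod3.Std P (inertiaFldC P) M q w →
    ∀ (V₁' V₂' : ValuationSubring (A2.Mod.FE (inertiaFldC P) (M * q)))
      (V₁ V₂ V₃ : ValuationSubring (A2.Mod.FE (inertiaFldC P) (M * q * q)))
      (W' : A2.Mod.FE (inertiaFldC P) (M * q) ≃ₐ[inertiaFldC P]
        A2.Mod.FE (inertiaFldC P) (M * q))
      (W : A2.Mod.FE (inertiaFldC P) (M * q * q) ≃ₐ[inertiaFldC P]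
        A2.Mod.FE (inertiaFldC P) (M * q * q)),
      Mod3.Objs P (inertiaFldC P) M q V₁' V₂' V₁ V₂ V₃ W' W →
      5 ≤ q → ∀ p : ℕ, p.Prime → p ≠ 2 → p ≠ q → p ∣ q ^ 2 - 1 →
        H987.RSurj1E (A2.RE P (inertiaFldC P)) (inertiaFldC P) p V₁' V₂'

/-- **(L) over the inertia field, hard case**: the labels at the nodes of level `M q` are onto
(`H630.Lab1SurjE`) for SOME primitive `p`-th root of unity, at every system of objects over
`E = inertiaFldC P`. -/
def LeafLabSurjHardI : Prop :=
  ∀ (P : ValuationSubring A2.Qb) (M q : ℕ) [NeZero M] [NeZero q] [NeZero (M * q)]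
    (w : A2.RE P (inertiaFldC P)), Mod3.Std P (inertiaFldC P) M q w →
    ∀ (V₁' V₂' : ValuationSubring (A2.Mod.FE (inertiaFldC P) (M * q)))
      (V₁ V₂ V₃ : ValuationSubring (A2.Mod.FE (inertiaFldC P) (M * q * q)))
      (W' : A2.Mod.FE (inertiaFldC P) (M * q) ≃ₐ[inertiaFldC P]
        A2.Mod.FE (inertiaFldC P) (M * q))
      (W : A2.Mod.FE (inertiaFldC P) (M * q * q) ≃ₐ[inertiaFldC P]
        A2.Mod.FE (inertiaFldC P) (M * q * q)),
      Mod3.Objs P (inertiaFldC P) M q V₁' V₂' V₁ V₂ V₃ W' W →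
      5 ≤ q → ∀ p : ℕ, p.Prime → p ≠ 2 → p ≠ q → p ∣ q ^ 2 - 1 →
        ∃ ζ : A2.RE P (inertiaFldC P), IsPrimitiveRoot ζ p ∧
          Fermat.Agent.S59.LoSqC.H630.Lab1SurjE (inertiaFldC P) w
            (A2.Mod.xE (inertiaFldC P) M q) V₁' V₂' p ζ

/-- The mountain over the inertia field (hard case) from the two surjectivities over the
inertia field. -/
theorem leafRealizeHardI_of_surjI433 (hR : LeafRSurjHardI) (hL : LeafLabSurjHardI) :
    H876.LeafRealizeHardI := by
  intro P M q _ _ _ w hS V₁' V₂' V₁ V₂ V₃ W' W hO h5 p hp hp2 hpq hd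
  exact H987.realizeAt_of_surj_pt H865.leafCtx865 P (inertiaFldC P) M q w hS V₁' V₂' V₁ V₂ V₃
    W' W hO p hp hpq (hR P M q w hS V₁' V₂' V₁ V₂ V₃ W' W hO h5 p hp hp2 hpq hd)
    (hL P M q w hS V₁' V₂' V₁ V₂ V₃ W' W hO h5 p hp hp2 hpq hd)

/-- The leaf forms of helper756 (all good unramified `E`, all `ζ`) imply the inertia forms. -/
theorem leafRSurjHardI_of_leaf433
    (hR : Mod3.Leaf fun P E _ q _ _ _ _ V₁' V₂' _ _ _ =>
      5 ≤ q → ∀ p : ℕ, p.Prime → p ≠ 2 → p ≠ q → p ∣ q ^ 2 - 1 →
        H987.RSurj1E (A2.RE P E) E p V₁' V₂') : LeafRSurjHardI := by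
  intro P M q _ _ _ w hS V₁' V₂' V₁ V₂ V₃ W' W hO h5 p hp hp2 hpq hd
  exact hR P (inertiaFldC P) M q w hS V₁' V₂' V₁ V₂ V₃ W' W hO h5 p hp hp2 hpq hd

/-- **CORE-SQ at the neat levels** from the two surjectivities over the inertia field. -/
theorem coreSqNeat_of_surjHardI433 (hR : LeafRSurjHardI) (hL : LeafLabSurjHardI) :
    CoreSqNeatStatement :=
  H876.coreSqNeat_of_realizeHardI876 (leafRealizeHardI_of_surjI433 hR hL)

/-- **Cell (C)** from the two surjectivities of level `M q` over the inertia field. -/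
theorem sqFree35_of_surjHardI433 (hR : LeafRSurjHardI) (hL : LeafLabSurjHardI) :
    Fermat.Agent.S59.H826.SqFree35Statement :=
  Fermat.Agent.S59.LoSqC.H608.sqFree35_of_coreSqNeat_all608 (coreSqNeat_of_surjHardI433 hR hL)

end Fermat.Agent.S59.LoSqC.H433

end

#print axioms Fermat.Agent.S59.LoSqC.H433.sqFree35_of_surjHardI433
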