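import Fermat.Agent.S59.LoSqC.H433.WCountCard
import Fermat.Agent.S59.LoSqC.H433.Frontier3
import Fermat.Agent.S59.LoSqC.H216.TauSlope
import Fermat.Agent.S59.LoSqC.H34.SlopeZeroFin
import Fermat.Agent.S59.LoSqC.H862.SlopeCompat
import Fermat.Agent.S59.LoSqC.H835.SplitDictNative
import Fermat.Agent.S59.LoSqC.H456.Th1Closed
import Fermat.Agent.S59.LoSqC.H865.NodeDict
import Fermat.Agent.S59.LoSqC.H27.PlugJ
import Fermat.Agent.S59.LoSqC.Real.Lab

/-!
# S59 moonshot, cell (C) LO-SQ — THE ASSEMBLY OF THE COUNT (route Z, helper433)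

OFF-MAIN.  At every system of objects of level `M q` over the inertia field `E = ℚ̄^{I_P}`,
`5 ≤ q`, `p ≠ q` prime, the count of level `q M` is instantiated at the towers

    I n = G[p^n]^{I_P}                                   (`H505.inertiaTors505`)
    F n = {E-slope-zero classes mod p^n} ∩ I n            (`H34.slopeZeroPart_h34`, helper862 voc.)
    S n = splitPartQ (p^n) ∩ F n                          (main WALL-q vocabulary)

and gives BOTH open leaves of the cell:

* (R) `H987.RSurj1E (A2.RE P E) E p V₁' V₂'`                       (via helper27 `rSurj1E_of_rSurjJ`)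
* (L) `H630.Lab1SurjE E w (xE E M q) V₁' V₂' p ζ`                   (via helper885 `Real.lab1SurjE_of_card`)

UNCONDITIONALLY.

Plugged (all compiled by their owners): COUNT-NUM (140), TAME-CYC (319), RED-HOM and the J-towers
(296), J-TAU and TAU-SLOPE (216), `(τ - 1) x` inertia-fixed (505), NODE-REL card form and
FIN-OF-SLOPE (862, 34), COMPAT-E for the tower of `F` (862 `hasSlopeZeroGen_of_mul862`), the
dictionary (α) ⟹ (β) (862 `slopeZeroE_of_hasSlopeZeroGen862`), TH1 (456), NODE-DICT and the genus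
inequality (865, 139), SPLIT-DICT and PURE-SPLIT (835 `hKer_native835`), the label count (193,
296 LabJ, 885 `Real/Lab`), SURJ-E and COND-PDIV (27, 967), CTX (865), the abstract count (505).

    surj_routeZ433          : (R) ∧ ∃ ζ, (L)      (pointwise, at every system of objects)
    leafRSurjHardI433 : LeafRSurjHardI,   leafLabSurjHardI433 : LeafLabSurjHardI
    **sqFree35_433 : H826.SqFree35Statement**        (= cell (C) of the S59 moonshot)
-/

set_option autoImplicit false
set_option linter.style.haveILetI false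
set_option linter.unusedSectionVars false
set_option linter.unusedVariables false
set_option synthInstance.maxHeartbeats 400000
set_option maxHeartbeats 1600000

noncomputable section

namespace Fermat.Agent.S59.LoSqC.H433

open ModularCurve HahnSeries AlgebraicCurve
open Fermat.Agent
open Fermat.Agent.S24 Fermat.Agent.A2.H528 Fermat.Agent.A2.T1.H669 Fermat.Agent.Ribet.H884
open Fermat.Agent.A2.H708
open Fermat.Agent.A2.Mod Fermat.Agent.Ribet.H868
open Fermat.Agent.A2.IF.H429 (inertiaField)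
open Fermat.Agent.S36 Fermat.Agent.S36.Eng
open Fermat.Agent.Ribet.H158.WallQ (PPowSeries splitPartQ finPartQ splitSetQ)
open Fermat.Agent.S59.LoSqC.H862 (HasSlopeZeroGen Th1At)
open Fermat.Agent.S59.LoSqC.H505 (inertiaTors505 mem_inertiaTors505)
open Fermat.Agent.S59.LoSqC.H34 (slopeZeroPart_h34)
open Fermat.Agent.S59.LoSqC.H27 (levelCastJ)

local notation "Q̄" => AlgebraicClosure ℚ

section Std

variable (P : ValuationSubring Q̄) (E : IntermediateField ℚ Q̄) (M q : ℕ)
  [NeZero M] [NeZero q] [NeZero (M * q)] (w : RE P E)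

/-- `Mod3.Std` at the uniformiser `q`. -/
theorem std_q433 (hStd : S36.Mod3.Std P E M q w) :
    S36.Mod3.Std P E M q ((q : ℕ) : RE P E) := by
  obtain ⟨ε, hε, hqw⟩ := Fermat.Agent.S59.LoSqC.H456.unram_of_std P E M q w hStd
  have hirr : Irreducible (((q : ℕ) : RE P E)) := by
    rw [hqw]
    exact (irreducible_isUnit_mul hε).2 hStd.unif
  exact ⟨hStd.q_prime, hStd.q_not_dvd, hStd.lies_over, hStd.unram, hStd.neat, hirr⟩

/-- Thickness one at the uniformiser `q` (helper456 `th1_std`). -/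
theorem th1At_q433 (hStd : S36.Mod3.Std P E M q w) (h5 : 5 ≤ q) :
    Th1At P E M q ((q : ℕ) : RE P E) :=
  fun p₁ p₂ hc n hn => Fermat.Agent.S59.LoSqC.H456.th1_std P E M q _
    (std_q433 P E M q w hStd) h5 p₁ p₂ hc n hn

end Std

section Main

variable (P : ValuationSubring Q̄) (M q : ℕ) [NeZero M] [NeZero q] [NeZero (M * q)]
  [NeZero (q * M)]

/-- The tower `F n` of route Z. -/
def towerF433 (hq : q.Prime) (hqM : ¬ q ∣ M) (haux : S35.G.HasAux M q)
    (hP : P.LiesOverPrime q) (p n : ℕ) : AddSubgroup (JZero (q * M)) :=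
  slopeZeroPart_h34 q M (p ^ n) hq hqM haux P hP ⊓ inertiaTors505 (q * M) P (p ^ n)

/-- **The count of route Z** (J-side conclusion): the toric classes `S 1 = splitPartQ p ∩ F 1`
are exactly `p ^ h`, and the reductions are onto on `F 1`. -/
theorem count_routeZ433 (w : RE P (inertiaField P))
    (hStd : Mod3.Std P (inertiaField P) M q w) (h5 : 5 ≤ q) (p : ℕ) (hp : p.Prime)
    (hpq : p ≠ q) (h : ℕ)
    (hgenus : 4 * H140.gRes140 P M + 2 * h ≤ 2 * H140.gBar140 (q * M))
    (hLab : Nat.card ↥(splitPartQ (p ^ 1) q M P ⊓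
      towerF433 P M q hStd.q_prime hStd.q_not_dvd hStd.neat.hasAux hStd.lies_over p 1) ≤ p ^ h) :
    Nat.card ↥(splitPartQ (p ^ 1) q M P ⊓
      towerF433 P M q hStd.q_prime hStd.q_not_dvd hStd.neat.hasAux hStd.lies_over p 1) = p ^ h ∧
      H296.RSurjJ p q M P
        (towerF433 P M q hStd.q_prime hStd.q_not_dvd hStd.neat.hasAux hStd.lies_over p 1) := by
  have hq := hStd.q_prime
  have hqM := hStd.q_not_dvd
  have hP := hStd.lies_over
  have haux := hStd.neat.hasAux
  have hTh1 : Th1At P (inertiaField P) M q ((q : ℕ) : RE P (inertiaField P)) :=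
    th1At_q433 P (inertiaField P) M q w hStd h5
  refine hybridCount433 hp hq hpq hqM hStd.neat hP
    (fun n => towerF433 P M q hq hqM haux hP p n) (fun n => inf_le_right) ?_
    ((q - 1) * dedekindPsi M) ?_ ?_ ?_ h hgenus hLab
  · -- TAU-SLOPE
    intro n x hx τ hτ
    have hfixτ : ∀ (j : ℕ) (z : JZero (q * M)), p ^ j • z = 0 →
        ∀ σ ∈ P.inertiaSubgroupIn ℚ, σ • (τ • z - z) = τ • z - z :=
      fun j z hz => H505.tau_sub_fixed505 hp hq hpq hqM hP j z hz hτ
    refine AddSubgroup.mem_inf.mpr ⟨?_, ?_, hfixτ n x hx⟩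
    · exact H216.hasSlopeZeroGen_tau_h216 p n q M hp hq hqM haux P hP hTh1 τ hfixτ x hx
    · rw [nsmul_sub, hx, sub_zero, ← Fermat.Agent.S35.H504.galois_smul_nsmul, hx,
        Fermat.Agent.S35.H504.galois_smul_zero]
  · -- NODE-REL, card form
    intro n
    exact H34.nodeRel_card_slopeZeroPart_h34 q M (p ^ n) hq hqM haux (pow_pos hp.pos n) P hP
      hTh1 (inertiaTors505 (q * M) P (p ^ n)) (fun x hx => hx.1) (fun x hx => hx.2)
  · -- COMPAT-E
    rintro n x ⟨hxF, -, hxfix⟩ h0
    refine AddSubgroup.mem_inf.mpr ⟨?_, ?_, hxfix⟩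
    · show HasSlopeZeroGen (p ^ 1) q M P x
      rw [pow_one]
      have hxF' : HasSlopeZeroGen (p ^ n * p) q M P x := by
        have : HasSlopeZeroGen (p ^ (n + 1)) q M P x := hxF
        rwa [pow_succ] at this
      exact H862.hasSlopeZeroGen_of_mul862 q M (p ^ n) p (pow_pos hp.pos n) hq hqM haux P hP x
        hxF' h0
    · rw [pow_one]
      exact h0
  · -- FIN-OF-SLOPE
    intro x hx
    have := H34.slopeZeroPart_le_finPartQ_h34 q M (p ^ 1) hq hqM haux (pow_pos hp.pos 1) P hP
      hTh1 hx.1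
    rwa [H505.finPartQ_pow_one505] at this

/-- The toric classes of route Z, at the level `M * q`. -/
def toricZ433 (hq : q.Prime) (hqM : ¬ q ∣ M) (haux : S35.G.HasAux M q)
    (hP : P.LiesOverPrime q) (p : ℕ) : AddSubgroup (JZero (M * q)) :=
  (splitPartQ (p ^ 1) q M P ⊓ towerF433 P M q hq hqM haux hP p 1).map
    (levelCastJ (Nat.mul_comm q M)).toAddMonoidHom

theorem card_toricZ433 (hq : q.Prime) (hqM : ¬ q ∣ M) (haux : S35.G.HasAux M q)
    (hP : P.LiesOverPrime q) (p : ℕ) :
    Nat.card ↥(toricZ433 P M q hq hqM haux hP p) =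
      Nat.card ↥(splitPartQ (p ^ 1) q M P ⊓ towerF433 P M q hq hqM haux hP p 1) :=
  (Nat.card_congr ((levelCastJ (Nat.mul_comm q M)).addSubgroupMap
    (splitPartQ (p ^ 1) q M P ⊓ towerF433 P M q hq hqM haux hP p 1)).toEquiv).symm

/-- **(R) and (L) at one system of objects.** -/
theorem surj_routeZ433 (w : RE P (inertiaField P))
    (hStd : Mod3.Std P (inertiaField P) M q w)
    (V₁' V₂' : ValuationSubring (FE (inertiaField P) (M * q)))
    (V₁ V₂ V₃ : ValuationSubring (FE (inertiaField P) (M * q * q)))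
    (W' : FE (inertiaField P) (M * q) ≃ₐ[inertiaField P] FE (inertiaField P) (M * q))
    (W : FE (inertiaField P) (M * q * q) ≃ₐ[inertiaField P] FE (inertiaField P) (M * q * q))
    (hO : Mod3.Objs P (inertiaField P) M q V₁' V₂' V₁ V₂ V₃ W' W)
    (h5 : 5 ≤ q) (p : ℕ) (hp : p.Prime) (hpq : p ≠ q) :
    H987.RSurj1E (RE P (inertiaField P)) (inertiaField P) p V₁' V₂' ∧
      ∃ ζ : RE P (inertiaField P), IsPrimitiveRoot ζ p ∧
        H630.Lab1SurjE (inertiaField P) w (xE (inertiaField P) M q) V₁' V₂' p ζ := by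
  haveI : IsDiscreteValuationRing ↥(RE P (inertiaField P)) := hStd.unram.1.dvr
  haveI : HenselianLocalRing ↥(RE P (inertiaField P)) := hStd.unram.1.henselian
  haveI : IsAlgClosed (IsLocalRing.ResidueField ↥(RE P (inertiaField P))) :=
    hStd.unram.1.algClosed
  have hq := hStd.q_prime
  have hqM := hStd.q_not_dvd
  have hP := hStd.lies_over
  have haux := hStd.neat.hasAux
  have hqp : ¬ q ∣ p := fun hd => hpq ((Nat.prime_dvd_prime_iff_eq hq hp).1 hd).symm
  have hqp1 : ¬ q ∣ p ^ 1 := by rwa [pow_one]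
  have hV := hO.vinf'
  have hW := hO.fricke'
  have hV₂ := hO.vzero'
  subst hV₂
  -- the nodes and the genus inequality
  obtain ⟨Sg, hSg, -, hgen⟩ := H865.exists_nodes_count865 P (inertiaField P) M q w hStd h5
    V₁' W' hV hW P hP
  rw [H140.gBar_mul_comm140] at hgen
  -- a primitive root of unity
  obtain ⟨ζ, hζ⟩ := A2.Alg.H348.exists_primitiveRoot (R := ↥(RE P (inertiaField P))) q p hq
    (Fermat.Agent.A2.T1.H669.natCast_mem_maximalIdeal_RE (inertiaField P) hP) hp.pos hqp
  -- the toric classes at the level `M * q` are Kummer classes of `splitDiv`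
  have hSgen : toricZ433 P M q hq hqM haux hP p ≤
      H296.kummerClasses296 (inertiaField P) (M * q) p
        (H193.splitDiv (R := RE P (inertiaField P)) (inertiaField P) w
          (xE (inertiaField P) M q) p V₁'
          (V₁'.comap (W' : FE (inertiaField P) (M * q) →+* FE (inertiaField P) (M * q)))) := by
    rintro _ ⟨x, ⟨hxs, hxF, -⟩, rfl⟩
    have hxs' : x ∈ splitPartQ p q M P := by rwa [pow_one] at hxs
    have hxF' : HasSlopeZeroGen p q M P x := by
      have : HasSlopeZeroGen (p ^ 1) q M P x := hxF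
      rwa [pow_one] at this
    exact H835.hKer_native835 hStd hV hW hp.pos hqp hxF' hxs'
  -- the label count
  have hLab : Nat.card ↥(splitPartQ (p ^ 1) q M P ⊓ towerF433 P M q hq hqM haux hP p 1) ≤
      p ^ (Sg.card - 1) := by
    rw [← card_toricZ433]
    exact Real.card_toric_le hStd hV hW hp.pos hqp hζ Sg (fun 𝔫 h => (hSg 𝔫).1 h)
      (fun 𝔫 h => (hSg 𝔫).2 h) _ hSgen
  -- THE COUNT
  obtain ⟨hcard, hJ⟩ := count_routeZ433 P M q w hStd h5 p hp hpq (Sg.card - 1) hgen hLab
  refine ⟨?_, ζ, hζ, ?_⟩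
  · -- (R)
    have T := H865.leafCtx865 P (inertiaField P) M q w hStd V₁' _ V₁ V₂ V₃ W' W hO
    refine H27.rSurj1E_of_rSurjJ hStd hO T hp.pos hqp _ hJ (fun x hx => ?_)
    have hxF : HasSlopeZeroGen p q M P x := by
      have : HasSlopeZeroGen (p ^ 1) q M P x := hx.1
      rwa [pow_one] at this
    obtain ⟨y, hy0, hdiv, hK, hsl⟩ :=
      H862.slopeZeroE_of_hasSlopeZeroGen862 P M q p hq hqM haux hP w hStd.unif V₁' W' hV hW x hxF
    exact ⟨toFF (inertiaField P) (Nat.mul_comm M q) y, y, hK, coe_toFF _ _ y, hsl⟩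
  · -- (L)
    refine Real.lab1SurjE_of_card hStd hV hW hp.pos hqp hζ Sg (fun 𝔫 h => (hSg 𝔫).1 h)
      (fun 𝔫 h => (hSg 𝔫).2 h) _ hSgen ?_
    rw [card_toricZ433, hcard]

end Main

/-- **(R) over the inertia field** (hard case). -/
theorem leafRSurjHardI433 : LeafRSurjHardI := by
  intro P M q _ _ _ w hS V₁' V₂' V₁ V₂ V₃ W' W hO h5 p hp hp2 hpq hd
  haveI : NeZero (q * M) := ⟨by rw [Nat.mul_comm]; exact NeZero.ne (M * q)⟩
  exact (surj_routeZ433 P M q w hS V₁' V₂' V₁ V₂ V₃ W' W hO h5 p hp hpq).1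

/-- **(L) over the inertia field** (hard case). -/
theorem leafLabSurjHardI433 : LeafLabSurjHardI := by
  intro P M q _ _ _ w hS V₁' V₂' V₁ V₂ V₃ W' W hO h5 p hp hp2 hpq hd
  haveI : NeZero (q * M) := ⟨by rw [Nat.mul_comm]; exact NeZero.ne (M * q)⟩
  exact (surj_routeZ433 P M q w hS V₁' V₂' V₁ V₂ V₃ W' W hO h5 p hp hpq).2

/-- **The mountain over the inertia field** (hard case). -/
theorem leafRealizeHardI433 : H876.LeafRealizeHardI :=
  leafRealizeHardI_of_surjI433 leafRSurjHardI433 leafLabSurjHardI433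

/-- **CORE-SQ at the neat levels.** -/
theorem coreSqNeat433 : CoreSqNeatStatement :=
  coreSqNeat_of_surjHardI433 leafRSurjHardI433 leafLabSurjHardI433

/-- **CELL (C) OF THE S59 MOONSHOT.** -/
theorem sqFree35_433 : Fermat.Agent.S59.H826.SqFree35Statement :=
  sqFree35_of_surjHardI433 leafRSurjHardI433 leafLabSurjHardI433

end Fermat.Agent.S59.LoSqC.H433

end

#print axioms Fermat.Agent.S59.LoSqC.H433.sqFree35_433
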