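import Fermat.Agent.S59.LoSqC.H505.JCount

/-!
# S59 moonshot, cell (C) LO-SQ, W-COUNT: the count with NODE-REL in CARD form (helper433)

OFF-MAIN.  `H505.wCount505` (helper505) takes NODE-REL in the form `K • x ∈ F n`; the owners of
NODE-REL / SLOPE-CARD (helper862 `nodeRel_card_th1`, helper34 `nodeRel_card_slopeZeroPart_h34`,
helper868 `slopeCard868`) deliver the CARD form `#I ≤ s · #(F ⊓ I)`.  This file is the same
assembly with the card form as input:

* `wCountCard433`  : `wCount505` with `hNode : ∀ n, #(G[p^n]^{I_A}) ≤ K · #(F n)`;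
* `hybridCount433` : the instance `S n = splitPartQ (p^n) ∩ F n` (J-TAU and the J-tower of
  `splitPartQ` plugged) with ANY tower `F n ≤ G[p^n]^{I_A}` containing the classes `τ x - x`
  (to be instantiated by the E-slope-zero classes `H34.slopeZeroPart_h34 ⊓ inertiaTors505`).

Remaining inputs of `hybridCount433`: `hTauF` (TAU-SLOPE), `hNode` (card form), `hFk`
(`F (n+1)[p] ⊆ F 1`), `hFfin` (`F 1 ≤ finPartQ p`), `hgenus` (`4 g₀ + 2 h ≤ 2 g`), `hLab`
(`#S 1 ≤ p ^ h`).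
-/

set_option autoImplicit false
set_option linter.unusedSectionVars false
set_option linter.unusedVariables false
set_option linter.style.haveILetI false
set_option synthInstance.maxHeartbeats 400000
set_option maxHeartbeats 1000000

noncomputable section

namespace Fermat.Agent.S59.LoSqC.H433

open AlgebraicCurve ModularCurve
open Fermat.Agent.S24 Fermat.Agent.Ribet.H884 Fermat.Agent.Ribet.H158.WallQ
open Fermat.Agent.S59.LoSqC.H296 Fermat.Agent.S59.LoSqC.H140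
open Fermat.Agent.S59.LoSqC.H505

variable {p q M' : ℕ} [NeZero M'] [NeZero q] [NeZero (q * M')]
  {A : ValuationSubring (AlgebraicClosure ℚ)}

/-- **W-COUNT with NODE-REL in card form.** -/
theorem wCountCard433 (hp : p.Prime) (hq : q.Prime) (hpq : p ≠ q) (hqM : ¬ q ∣ M')
    (hneat : Fermat.Agent.S36.Eng.NeatFor M' q) (hA : A.LiesOverPrime q)
    (F S : ℕ → AddSubgroup (JZero (q * M')))
    (hF : ∀ n, ∀ x ∈ F n, (p ^ n) • x = 0) (hS : ∀ n, ∀ x ∈ S n, (p ^ n) • x = 0)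
    (hTau : ∀ (n : ℕ) (x : JZero (q * M')), (p ^ n) • x = 0 →
      ∀ τ ∈ A.inertiaSubgroupIn ℚ, τ • x - x ∈ S n)
    (K : ℕ)
    (hNode : ∀ n : ℕ, Nat.card ↥(inertiaTors505 (q * M') A (p ^ n)) ≤ K * Nat.card ↥(F n))
    (hFk : ∀ n x, x ∈ F (n + 1) → p • x = 0 → x ∈ F 1)
    (hSk : ∀ n x, x ∈ S (n + 1) → p • x = 0 → x ∈ S 1)
    (hFfin : F 1 ≤ finPartQ p q M' A)
    (hKer : ∀ x ∈ F 1, x ∈ splitPartQ p q M' A → x ∈ S 1)
    (h : ℕ) (hgenus : 4 * gRes140 A M' + 2 * h ≤ 2 * gBar140 (q * M'))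
    (hLab : Nat.card (S 1) ≤ p ^ h) :
    Nat.card (S 1) = p ^ h ∧ RSurjJ p q M' A (F 1) := by
  have hqp : ¬ q ∣ p := fun hd => hpq ((Nat.prime_dvd_prime_iff_eq hq hp).mp hd).symm
  obtain ⟨hcJ, -, hcQ, -, -, -⟩ :=
    countNum_neat140 M' q hq hqM hneat A hA p hp.ne_zero hqp
  obtain ⟨φ, σ, hσ⟩ := Fermat.Agent.S59.LoSqC.H319.exists_tamePair hq hp hpq A hA
  obtain ⟨red, hredC, hredT, hredK⟩ := exists_redHom_h296 p q M' A hp.ne_zero hq hqM hA
  have hfin : ∀ n, Finite (tors505 (JZero (q * M')) (p ^ n)) := fun n =>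
    finite_tors_jZero505 (q * M') (pow_ne_zero n hp.ne_zero)
  have hFle : ∀ n, F n ≤ tors505 (JZero (q * M')) (p ^ n) := fun n x hx =>
    mem_tors505.mpr (hF n x hx)
  have hSle : ∀ n, S n ≤ tors505 (JZero (q * M')) (p ^ n) := fun n x hx =>
    mem_tors505.mpr (hS n x hx)
  have hIle : ∀ n, fixTors505 (q * M') σ (p ^ n) ≤ tors505 (JZero (q * M')) (p ^ n) :=
    fun n x hx => mem_tors505.mpr hx.1
  -- the numbers
  have hJ : ∀ n, p ^ (2 * gBar140 (q * M') * n) ≤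
      Nat.card (tors505 (JZero (q * M')) (p ^ n)) := fun n => by
    rw [tors505_eq_torsion, hcJ n]
  set Q₁ : AddSubgroup (JZeroC (kA A) M' × JZeroC (kA A) M') :=
    (Pic0.torsion (kA A) (modularFunctionFieldFullC (kA A) M') (p ^ 1)).prod
      (Pic0.torsion (kA A) (modularFunctionFieldFullC (kA A) M') (p ^ 1)) with hQ₁
  have hQcard : Nat.card Q₁ = p ^ (4 * gRes140 A M') := by
    have := hcQ 1
    rw [mul_one] at this
    exact this
  haveI : Finite Q₁ := by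
    apply Nat.finite_of_card_ne_zero
    rw [hQcard]
    exact pow_ne_zero _ hp.ne_zero
  have hmemQ : ∀ y : JZeroC (kA A) M' × JZeroC (kA A) M', p • y = 0 → y ∈ Q₁ := by
    intro y hy
    rw [hQ₁, mem_torsion_pair_iff140, pow_one]
    exact ⟨congrArg Prod.fst hy, congrArg Prod.snd hy⟩
  -- MONO / TAU
  have hmono := mono_card_of_hom505 hfin (fun n => fixTors505 (q * M') σ (p ^ n)) S hIle hSle
    (galSubOne505 (q * M') σ)
    (fun n x hx => by
      rw [galSubOne505_apply]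
      exact hTau n x hx σ hσ.mem)
    (fun n x hx h0 => by
      rw [galSubOne505_apply] at h0
      exact ⟨hx, sub_eq_zero.mp h0⟩)
  -- NODE-REL, card form
  have hslope : ∀ n, Nat.card ↥(fixTors505 (q * M') σ (p ^ n)) ≤ K * Nat.card ↥(F n) := by
    intro n
    have hle : fixTors505 (q * M') σ (p ^ n) ≤ inertiaTors505 (q * M') A (p ^ n) :=
      fun x hx => ⟨hx.1, Fermat.Agent.S59.LoSqC.H319.fixed_of_sigma_fixed hq (Dvd.intro M' rfl)
        (not_sq_dvd505 hq hqM) hp hpq n A hA hσ x hx.1 hx.2⟩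
    haveI := hfin n
    haveI : Finite ↥(inertiaTors505 (q * M') A (p ^ n)) :=
      finite_of_le505 (fun x hx => mem_tors505.mpr hx.1 :
        inertiaTors505 (q * M') A (p ^ n) ≤ tors505 (JZero (q * M')) (p ^ n))
    exact (card_le_of_le505 hle).trans (hNode n)
  -- the count
  obtain ⟨h1, h2⟩ := count_family_sub505 (G := JZero (q * M')) (m := p)
    (s := K) (a := 4 * gRes140 A M') (h := h)
    (c := 2 * gBar140 (q * M')) hp.pos hgenus hfin hJ
    (fun n => fixTors505 (q * M') σ (p ^ n)) F S hFle hSle hmono hslope hFk hSk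
    (finPartQ p q M' A) hFfin red Q₁ (le_of_eq hQcard)
    (fun x _ => hmemQ _ (hredT x))
    (fun x hx h0 => hKer _ hx ((hredK x).mp h0)) hLab
  refine ⟨h1, fun y hy => ?_⟩
  obtain ⟨x, hx, rfl⟩ := h2 y (hmemQ y hy)
  exact ⟨x, hx, hredC x⟩

/-- **The hybrid count**: `S n = splitPartQ (p ^ n) ∩ F n` with `F n` ANY tower of inertia-fixed
classes containing the classes `τ x - x` (TAU-SLOPE): the tower of `S` and TAU are plugged
(J-form: helper216 `tau_mem_splitPartQ_h216`, helper296 `redTower_h296`). -/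
theorem hybridCount433 (hp : p.Prime) (hq : q.Prime) (hpq : p ≠ q) (hqM : ¬ q ∣ M')
    (hneat : Fermat.Agent.S36.Eng.NeatFor M' q) (hA : A.LiesOverPrime q)
    (F : ℕ → AddSubgroup (JZero (q * M')))
    (hF : ∀ n, F n ≤ inertiaTors505 (q * M') A (p ^ n))
    (hTauF : ∀ (n : ℕ) (x : JZero (q * M')), (p ^ n) • x = 0 →
      ∀ τ ∈ A.inertiaSubgroupIn ℚ, τ • x - x ∈ F n)
    (K : ℕ)
    (hNode : ∀ n : ℕ, Nat.card ↥(inertiaTors505 (q * M') A (p ^ n)) ≤ K * Nat.card ↥(F n))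
    (hFk : ∀ n x, x ∈ F (n + 1) → p • x = 0 → x ∈ F 1)
    (hFfin : F 1 ≤ finPartQ p q M' A)
    (h : ℕ) (hgenus : 4 * gRes140 A M' + 2 * h ≤ 2 * gBar140 (q * M'))
    (hLab : Nat.card ↥(splitPartQ (p ^ 1) q M' A ⊓ F 1) ≤ p ^ h) :
    Nat.card ↥(splitPartQ (p ^ 1) q M' A ⊓ F 1) = p ^ h ∧ RSurjJ p q M' A (F 1) := by
  obtain ⟨-, -, -, -, -, hSk⟩ := redTower_h296 p q M' A hp.ne_zero hq hqM hA
  refine wCountCard433 hp hq hpq hqM hneat hA F
    (fun n => splitPartQ (p ^ n) q M' A ⊓ F n)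
    ?_ ?_ ?_ K hNode hFk ?_ hFfin ?_ h hgenus hLab
  · intro n x hx
    exact (hF n hx).1
  · rintro n x ⟨-, hx⟩
    exact (hF n hx).1
  · -- TAU
    intro n x hx τ hτ
    exact AddSubgroup.mem_inf.mpr
      ⟨Fermat.Agent.S59.LoSqC.H216.tau_mem_splitPartQ_h216 (p ^ n) q M' hq.ne_zero hA x hx hτ,
        hTauF n x hx τ hτ⟩
  · -- `S (n+1)[p] ⊆ S 1`
    rintro n x ⟨hxS, hxF⟩ h0
    exact AddSubgroup.mem_inf.mpr ⟨hSk n x hxS h0, hFk n x hxF h0⟩
  · -- KER
    intro x hx hsp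
    refine AddSubgroup.mem_inf.mpr ⟨?_, hx⟩
    rw [splitPartQ_pow_one505]
    exact hsp

end Fermat.Agent.S59.LoSqC.H433

end

#print axioms Fermat.Agent.S59.LoSqC.H433.hybridCount433
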